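import Mathlib
import Fermat.Agent.LT.T7.H340.UpFactSpec

/-!
# Row LT, tower T7, asset leaf UF.A4 `IsoContC340` (cut of helper340; helper165, spare)

OFF-MAIN.  `isoContC165 : H340.IsoContC340` VERBATIM, unconditional, Mathlib only: a ring
homomorphism of valued fields with `v(i x) = v(x)^e`, `e > 0`, is continuous, and so is `GL₂(i)`
(`Continuous.generalLinearGroup_map`).  No uniformiser is assumed: if the valuation of `k` is
trivial, `k` is discrete.
-/

set_option autoImplicit false

open Topology Filter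

noncomputable section

namespace Fermat.Agent.LT.T7.H165

/-- Below every non-zero element of `ℤᵐ⁰` there is an `exp (-m)`. -/
theorem exists_exp_neg_lt165 (g : WithZero (Multiplicative ℤ)) (hg : g ≠ 0) :
    ∃ m : ℕ, WithZero.exp (-(m : ℤ)) < g := by
  obtain ⟨a, rfl⟩ : ∃ a : ℤ, g = WithZero.exp a := ⟨_, (WithZero.exp_log hg).symm⟩
  refine ⟨(1 - a).toNat, ?_⟩
  rw [WithZero.exp_lt_exp]
  have := Int.self_le_toNat (1 - a)
  omega

/-- A ring homomorphism of valued fields with `v(i x) = v(x)^e`, `e > 0`, is continuous. -/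
theorem continuous_of_val_pow165 {k k' : Type} [Field k] [Field k']
    [Valued k (WithZero (Multiplicative ℤ))] [Valued k' (WithZero (Multiplicative ℤ))] (e : ℕ)
    (i : k →+* k') (he : 0 < e) (hi : ∀ x : k, Valued.v (i x) = Valued.v x ^ e) :
    Continuous i := by
  refine continuous_of_continuousAt_zero (i : k →+ k') ?_
  show Tendsto i (𝓝 0) (𝓝 (i 0))
  rw [map_zero, Filter.tendsto_def]
  intro t ht
  rw [Valued.mem_nhds_zero] at ht ⊢
  obtain ⟨γ, hγ⟩ := ht
  have hg0 : MonoidWithZeroHom.ValueGroup₀.embedding γ.1 ≠ 0 := (map_ne_zero _).2 γ.ne_zero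
  obtain ⟨m, hm⟩ := exists_exp_neg_lt165 _ hg0
  by_cases h : ∃ x₀ : k, x₀ ≠ 0 ∧ Valued.v x₀ < 1
  · obtain ⟨x₀, hx₀, hv₀⟩ := h
    have hv0 : (Valued.v x₀ : WithZero (Multiplicative ℤ)) ≠ 0 :=
      (Valuation.ne_zero_iff _).2 hx₀
    -- `v x₀ ≤ exp (-1)`
    have hle : Valued.v x₀ ≤ WithZero.exp (-1 : ℤ) := by
      rw [← WithZero.exp_log hv0, WithZero.exp_le_exp]
      have h1 : WithZero.exp (WithZero.log (Valued.v x₀)) < WithZero.exp (0 : ℤ) := by
        rw [WithZero.exp_log hv0, WithZero.exp_zero]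
        exact hv₀
      rw [WithZero.exp_lt_exp] at h1
      omega
    have h0 : (Valued.v : Valuation k (WithZero (Multiplicative ℤ))).restrict (x₀ ^ m) ≠ 0 := by
      rw [Ne, Valuation.restrict_eq_zero_iff, map_pow]
      exact pow_ne_zero _ hv0
    refine ⟨Units.mk0 _ h0, fun x hx => hγ ?_⟩
    have h1 : (Valued.v : Valuation k (WithZero (Multiplicative ℤ))).restrict x
        < (Valued.v : Valuation k (WithZero (Multiplicative ℤ))).restrict (x₀ ^ m) := hx
    rw [Valuation.restrict_lt_iff, map_pow] at h1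
    show (Valued.v : Valuation k' (WithZero (Multiplicative ℤ))).restrict (i x) < γ.1
    rw [Valuation.restrict_lt_iff_lt_embedding, hi]
    refine lt_of_le_of_lt ?_ hm
    -- `v x < (v x₀)^m ≤ exp (-m) ≤ 1`
    have h2 : Valued.v x₀ ^ m ≤ WithZero.exp (-(m : ℤ)) := by
      calc Valued.v x₀ ^ m ≤ WithZero.exp (-1 : ℤ) ^ m := pow_le_pow_left₀ zero_le hle m
        _ = WithZero.exp (-(m : ℤ)) := by
          rw [← WithZero.exp_nsmul]
          simp
    have h3 : Valued.v x ≤ WithZero.exp (-(m : ℤ)) := (h1.trans_le h2).le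
    have h4 : (WithZero.exp (-(m : ℤ)) : WithZero (Multiplicative ℤ)) ≤ 1 := by
      rw [← WithZero.exp_zero, WithZero.exp_le_exp]
      omega
    obtain ⟨n, rfl⟩ : ∃ n, e = n + 1 := ⟨e - 1, by omega⟩
    rw [pow_succ]
    calc Valued.v x ^ n * Valued.v x ≤ 1 * Valued.v x :=
          mul_le_mul_left (pow_le_one₀ zero_le (h3.trans h4)) _
      _ = Valued.v x := one_mul _
      _ ≤ _ := h3
  · refine ⟨1, fun x hx => hγ ?_⟩
    have h1 : (Valued.v : Valuation k (WithZero (Multiplicative ℤ))).restrict x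
        < ((1 : (MonoidWithZeroHom.ValueGroup₀
          (MonoidWithZeroHom.ofClass (Valued.v : Valuation k (WithZero (Multiplicative ℤ)))))ˣ) :
          MonoidWithZeroHom.ValueGroup₀ _) := hx
    rw [Valuation.restrict_lt_iff_lt_embedding, Units.val_one, map_one] at h1
    have hx0 : x = 0 := by
      by_contra hne
      exact h ⟨x, hne, h1⟩
    show (Valued.v : Valuation k' (WithZero (Multiplicative ℤ))).restrict (i x) < γ.1
    rw [hx0, map_zero, map_zero]
    exact zero_lt_iff.2 γ.ne_zero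

/-- **ASSET LEAF UF.A4 = ISO-CONT**, VERBATIM. -/
theorem isoContC165 : H340.IsoContC340 := by
  intro k k' _ _ _ _ e i he hi
  have hc : Continuous i := continuous_of_val_pow165 e i he hi
  exact ⟨hc, hc.generalLinearGroup_map⟩

end Fermat.Agent.LT.T7.H165

end
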