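import Mathlib
import Fermat.Agent.LT.T7.H893.SupplySphSpec

/-!
# Row LT, tower T7, leaf T7.L2.1.H2b.3b `SphInertC893` (cut of helper893; helper165)

OFF-MAIN.  `sphInertC165 K K' : H893.SphInertC893 K K'` VERBATIM, unconditional (the hypothesis
`T6Out` is in the Prop).

Proof.  `e = 1`: the element `x ∈ v`, `x ∉ w²` of `UnramOut305` and `IsLocalExt.val_i`.
`T6.InstLocalC`: `K_v`, `K'_w` are local fields; `T6.InstExtC` for a generator of the Galois
group: `N w = (N v) ^ (l / e₀)` and `e₀ = e = 1` (the ramification index is determined by the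
restriction to `K`).  The components are `fun g => A (cartan g)`: `T6.FundLemmaC` (`FLMatch`
for all regular `γ`, `FLVanishC`).
-/

set_option autoImplicit false
set_option linter.style.haveILetI false
set_option linter.unusedSectionVars false

open AutomorphicForm IsDedekindDomain NumberField MeasureTheory
open scoped ComplexConjugate

noncomputable section

namespace Fermat.Agent.LT.T7.H165

open Fermat.Agent.LT.H556 Fermat.Agent.LT.H556.A0 Fermat.Agent.LT Fermat.Agent.LT.T7
open Fermat.Agent.LT.T7.H305 Fermat.Agent.LT.T7.H893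

section TwoFields

variable {K K' : Type} [Field K] [NumberField K] [Field K'] [NumberField K'] [Algebra K K']

/-- The ramification index of a local embedding is determined by its restriction to `K`. -/
theorem ramIdx_uniqueS165 (v : HeightOneSpectrum (𝓞 K)) (w : HeightOneSpectrum (𝓞 K'))
    (e e₀ : ℕ) (i i₀ : v.adicCompletion K →+* w.adicCompletion K')
    (hi : ∀ x : K, i (algebraMap K (v.adicCompletion K) x)
      = algebraMap K' (w.adicCompletion K') (algebraMap K K' x))
    (hi₀ : ∀ x : K, i₀ (algebraMap K (v.adicCompletion K) x)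
      = algebraMap K' (w.adicCompletion K') (algebraMap K K' x))
    (hv : ∀ x : v.adicCompletion K, Valued.v (i x) = Valued.v x ^ e)
    (hv₀ : ∀ x : v.adicCompletion K, Valued.v (i₀ x) = Valued.v x ^ e₀) : e = e₀ := by
  obtain ⟨π, hπ⟩ := v.valuation_exists_uniformizer K
  have h1 := hv (algebraMap K _ π)
  have h2 := hv₀ (algebraMap K _ π)
  rw [hi] at h1
  rw [hi₀] at h2
  have h3 : Valued.v (algebraMap K (v.adicCompletion K) π) = WithZero.exp (-1 : ℤ) := by
    rw [← hπ]
    exact v.valuedAdicCompletion_eq_valuation' π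
  rw [h3] at h1 h2
  have h4 : WithZero.exp (-1 : ℤ) ^ e = WithZero.exp (-1 : ℤ) ^ e₀ := h1.symm.trans h2
  rw [← WithZero.exp_nsmul, ← WithZero.exp_nsmul, WithZero.exp_inj] at h4
  have h5 : (e : ℤ) * (-1) = (e₀ : ℤ) * (-1) := by simpa using h4
  omega

theorem exists_genS165 (l : ℕ) (h : IsCycExt K K' l) :
    ∃ s : K' ≃ₐ[K] K', ∀ t : K' ≃ₐ[K] K', t ∈ Subgroup.zpowers s := by
  haveI := h.galois
  haveI : Fact l.Prime := ⟨h.prime⟩
  have hcard : Nat.card (K' ≃ₐ[K] K') = l := by
    rw [IsGalois.card_aut_eq_finrank, h.degree]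
  haveI : IsCyclic (K' ≃ₐ[K] K') := isCyclic_of_prime_card hcard
  exact IsCyclic.exists_generator

theorem coe_algebraMapS165 (x : 𝓞 K) :
    ((algebraMap (𝓞 K) (𝓞 K') x : 𝓞 K') : K') = algebraMap K K' (x : K) := rfl

theorem placeOver_iffS165 {v : HeightOneSpectrum (𝓞 K)} {w : HeightOneSpectrum (𝓞 K')}
    (h : PlaceOver K K' v w) (x : 𝓞 K) :
    x ∈ v.asIdeal ↔ algebraMap (𝓞 K) (𝓞 K') x ∈ w.asIdeal :=
  h x _ (coe_algebraMapS165 x)

theorem placeOver_of_leS165 {v : HeightOneSpectrum (𝓞 K)} {w : HeightOneSpectrum (𝓞 K')}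
    (h : ∀ x : 𝓞 K, x ∈ v.asIdeal → algebraMap (𝓞 K) (𝓞 K') x ∈ w.asIdeal) :
    PlaceOver K K' v w := by
  intro x y hxy
  have hy : y = algebraMap (𝓞 K) (𝓞 K') x := by
    exact RingOfIntegers.ext (hxy.trans (coe_algebraMapS165 x).symm)
  subst hy
  refine ⟨h x, fun hx => ?_⟩
  by_contra hxv
  haveI : v.asIdeal.IsMaximal := v.isMaximal
  obtain ⟨a, b, hb, hab⟩ := Ideal.IsMaximal.exists_inv (I := v.asIdeal) inferInstance hxv
  have h1 : algebraMap (𝓞 K) (𝓞 K') (a * x + b) ∈ w.asIdeal := by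
    rw [map_add, map_mul]
    exact w.asIdeal.add_mem (w.asIdeal.mul_mem_left _ hx) (h b hb)
  rw [hab, map_one] at h1
  exact w.isPrime.ne_top ((Ideal.eq_top_iff_one _).mpr h1)

/-- The valuation of an integer in the completion. -/
theorem val_intS165 {F : Type} [Field F] [NumberField F] (v : HeightOneSpectrum (𝓞 F))
    (x : 𝓞 F) :
    Valued.v (algebraMap F (v.adicCompletion F) (algebraMap (𝓞 F) F x)) = v.intValuation x := by
  have h3 : Valued.v (algebraMap F (v.adicCompletion F) (algebraMap (𝓞 F) F x))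
      = v.valuation F (algebraMap (𝓞 F) F x) :=
    v.valuedAdicCompletion_eq_valuation' _
  rw [h3, HeightOneSpectrum.valuation_of_algebraMap]

/-- **`e = 1` at an unramified place.** -/
theorem ramIdx_eq_oneS165 (v : HeightOneSpectrum (𝓞 K)) (w : HeightOneSpectrum (𝓞 K'))
    (x : 𝓞 K) (hxv : x ∈ v.asIdeal) (hxw : algebraMap (𝓞 K) (𝓞 K') x ∉ w.asIdeal ^ 2)
    (e : ℕ) (he : 0 < e) (i : v.adicCompletion K →+* w.adicCompletion K')
    (hi : ∀ x : K, i (algebraMap K (v.adicCompletion K) x)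
      = algebraMap K' (w.adicCompletion K') (algebraMap K K' x))
    (hv : ∀ x : v.adicCompletion K, Valued.v (i x) = Valued.v x ^ e) : e = 1 := by
  have h1 := hv (algebraMap K _ (algebraMap (𝓞 K) K x))
  rw [hi, val_intS165 v x] at h1
  have h2 : Valued.v (algebraMap K' (w.adicCompletion K')
      (algebraMap K K' (algebraMap (𝓞 K) K x))) = w.intValuation (algebraMap (𝓞 K) (𝓞 K') x) :=
    val_intS165 w (algebraMap (𝓞 K) (𝓞 K') x)
  rw [h2] at h1
  -- `v(x) ≤ exp (-1)`
  have h3 : v.intValuation x ≤ WithZero.exp (-((1 : ℕ) : ℤ)) := by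
    rw [v.intValuation_le_pow_iff_mem x 1, pow_one]
    exact hxv
  -- `w(x) > exp (-2)`
  have h4 : ¬ w.intValuation (algebraMap (𝓞 K) (𝓞 K') x) ≤ WithZero.exp (-((2 : ℕ) : ℤ)) := by
    rw [w.intValuation_le_pow_iff_mem _ 2]
    exact hxw
  rw [h1] at h4
  by_contra hne
  have he2 : 2 ≤ e := by omega
  apply h4
  calc v.intValuation x ^ e ≤ WithZero.exp (-((1 : ℕ) : ℤ)) ^ e := pow_le_pow_left₀ zero_le h3 e
    _ = WithZero.exp (-(e : ℤ)) := by
      rw [← WithZero.exp_nsmul]
      simp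
    _ ≤ WithZero.exp (-((2 : ℕ) : ℤ)) := by
      rw [WithZero.exp_le_exp]
      push_cast
      omega

end TwoFields

section Leaf

variable (K K' : Type) [Field K] [NumberField K] [Field K'] [NumberField K'] [Algebra K K']

/-- **LEAF T7.L2.1.H2b.3b = SPH-INERT**, VERBATIM. -/
theorem sphInertC165 : SphInertC893 K K' := by
  intro hT6 D _hD hcyc _hl2 _hTC T₀ hunram v hv w hvw huniq nw mv hnw hmv φ f A Av hφ hf hBC
    e i sw hi hsw hext
  obtain ⟨_, _, _, _, _, hInstLoc, hInstExt, _, _, _, _, _, _, hFL, _⟩ := hT6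
  subst hnw hmv
  -- `e = 1`
  obtain ⟨x, hxv, hxw⟩ := hunram v hv w hvw
  have he : e = 1 := ramIdx_eq_oneS165 v w x hxv hxw e hext.e_pos i hi hext.val_i
  subst he
  -- the local fields
  have hkv := hInstLoc K v
  have hkw := hInstLoc K' w
  have hkw' : T6.IsLocalField (w.adicCompletion K') (Ideal.absNorm v.asIdeal ^ D.l) := by
    haveI := hcyc.galois
    obtain ⟨s, hs⟩ := exists_genS165 D.l hcyc
    obtain ⟨e₀, i₀, sw₀, hi₀, _, hext₀, hN₀⟩ :=
      hInstExt K K' s hs (hcyc.degree ▸ hcyc.prime) v w (placeOver_iffS165 hvw)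
        (fun w' hw' => huniq w' (placeOver_of_leS165 hw'))
    have he : 1 = e₀ := ramIdx_uniqueS165 v w 1 e₀ i i₀ hi hi₀ hext.val_i hext₀.val_i
    rw [← he, Nat.div_one, hcyc.degree] at hN₀
    rw [← hN₀]
    exact hkw
  -- the functions
  have hφe : φ = fun g => A (T6.cartan g) := funext hφ.2
  have hfe : f = fun g => Av (T6.cartan g) := funext hf.2
  subst hφe hfe
  refine ⟨?_, ?_⟩
  · intro δ γ c c' hreg hconj hc hc'
    exact hFL.1 (v.adicCompletion K) (w.adicCompletion K') (Ideal.absNorm v.asIdeal) D.l i sw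
      hkv hkw' hext hcyc.prime A Av hφ.1 hf.1 hBC δ γ c c' hreg trivial hconj hc hc'
  · intro γ c' hreg hnn hc'
    exact hFL.2 (v.adicCompletion K) (w.adicCompletion K') (Ideal.absNorm v.asIdeal) D.l i sw
      hkv hkw' hext hcyc.prime A Av hφ.1 hf.1 hBC γ c' hreg hnn hc'

end Leaf

end Fermat.Agent.LT.T7.H165

end
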