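import Mathlib
import Fermat.Agent.LT.T7.H893.SupplySphSpec
import Fermat.Agent.LT.T6.H687.CartanInv
import Fermat.Agent.LT.T6.H162.CptGCore
import Fermat.Agent.LT.T6.H176.InstLocal

/-!
# Row LT, tower T7, leaf T7.L2.1.H2b.3a `SphInvC893` (cut of helper893; helper165)

OFF-MAIN.  `sphInvC165 F : H893.SphInvC893 F` VERBATIM, unconditional: a spherical function
`φ = A ∘ cartan` on `GL₂(F_v)` is bi-`GL₂(𝒪_v)`-invariant (`cartan_mul_mul_h687`, helper687) and
supported on finitely many cosets `x GL₂(𝒪_v)` (the support lies in a bounded set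
`{entries ≤ exp B, |det| ≥ exp (-B)}`, which is covered by finitely many cosets:
`cptG_core162`, helper162; `F_v` is a local field: `instLocalC176`, helper176).
-/

set_option autoImplicit false

open AutomorphicForm IsDedekindDomain NumberField

noncomputable section

namespace Fermat.Agent.LT.T7.H165

open Fermat.Agent.LT Fermat.Agent.LT.T7 Fermat.Agent.LT.T7.H893

theorem entryMax_ne_zeroV165 {k : Type} [Field k] [Valued k T6.Γ₀] (g : GL (Fin 2) k) :
    T6.entryMax g ≠ 0 := by
  intro h0
  have hz : ∀ i j : Fin 2, (g : Matrix (Fin 2) (Fin 2) k) i j = 0 := by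
    intro i j
    have := T6.H687.v_entry_le_entryMax_h687 g i j
    rw [h0] at this
    exact (Valuation.zero_iff _).1 (le_antisymm this zero_le)
  have hdet : (g : Matrix (Fin 2) (Fin 2) k).det = 0 := by
    rw [Matrix.det_fin_two, hz 0 0, hz 0 1]
    ring
  have hunit : IsUnit (g : Matrix (Fin 2) (Fin 2) k).det :=
    (Matrix.isUnit_iff_isUnit_det _).1 (Units.isUnit g)
  rw [hdet] at hunit
  exact not_isUnit_zero hunit

theorem cartan_fstV165 {k : Type} [Field k] [Valued k T6.Γ₀] (g : GL (Fin 2) k) :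
    (T6.cartan g).1 = WithZero.log (T6.entryMax g)
      - WithZero.log (Valued.v (g : Matrix (Fin 2) (Fin 2) k).det) := rfl

theorem cartan_sndV165 {k : Type} [Field k] [Valued k T6.Γ₀] (g : GL (Fin 2) k) :
    (T6.cartan g).2 = - WithZero.log (T6.entryMax g) := rfl

theorem val_det_ne_zeroV165 {k : Type} [Field k] [Valued k T6.Γ₀] (g : GL (Fin 2) k) :
    Valued.v (g : Matrix (Fin 2) (Fin 2) k).det ≠ 0 := by
  rw [Valuation.ne_zero_iff]
  exact ((Matrix.isUnit_iff_isUnit_det _).1 (Units.isUnit g)).ne_zero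

/-- **LEAF T7.L2.1.H2b.3a = SPH-INV**, VERBATIM. -/
theorem sphInvC165 (F : Type) [Field F] [NumberField F] : SphInvC893 F := by
  classical
  intro v φ A hφ
  obtain ⟨_, hval⟩ := hφ
  refine ⟨?_, ?_⟩
  · intro u u' g hu hu'
    rw [hval, hval, T6.H687.cartan_mul_mul_h687 g hu hu']
  · have hk := T6.H176.instLocalC176 F v
    let B : ℤ := ∑ lam ∈ A.support, (|lam.1| + |lam.2|)
    obtain ⟨S, -, hS⟩ := T6.H162.cptG_core162 hk B 0
    refine ⟨S, fun g hg => ?_⟩
    have hmem : T6.cartan g ∈ A.support := by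
      rw [Finsupp.mem_support_iff, ← hval]
      exact hg
    have hB : |(T6.cartan g).1| + |(T6.cartan g).2| ≤ B :=
      Finset.single_le_sum (f := fun lam : ℤ × ℤ => |lam.1| + |lam.2|)
        (fun _ _ => by positivity) hmem
    have e1 := cartan_fstV165 g
    have e2 := cartan_sndV165 g
    have hE0 := entryMax_ne_zeroV165 g
    have hD0 := val_det_ne_zeroV165 g
    have a1 := abs_le.1 (le_trans (le_add_of_nonneg_right (abs_nonneg (T6.cartan g).2)) hB)
    have a2 := abs_le.1 (le_trans (le_add_of_nonneg_left (abs_nonneg (T6.cartan g).1)) hB)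
    have a3 := neg_abs_le (T6.cartan g).1
    have a4 := neg_abs_le (T6.cartan g).2
    have a5 := le_abs_self (T6.cartan g).1
    have a6 := le_abs_self (T6.cartan g).2
    refine hS g ?_ ?_
    · rw [← WithZero.exp_log hE0, WithZero.exp_le_exp]
      omega
    · rw [← WithZero.exp_log hD0, WithZero.exp_le_exp]
      omega

end Fermat.Agent.LT.T7.H165

end
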