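import Mathlib
import Fermat.Agent.LT.T7.P51.ProdMtSpec

/-!
# Row LT, tower T7, leaves P.1 `UnramC51`, P.2 `LevelAtC51` (cut of helper51; helper165)

OFF-MAIN.  VERBATIM, unconditional:

    unramC165 K K' : P51.UnramC51 K K'
    levelAtC165 K K' : P51.LevelAtC51 K K'

`UnramC51`: a place `w` over `v ∤ 𝔫` does not divide `𝔫 𝒪_{K'}` (`w ∩ 𝒪_K = v`), so it is outside
`S'` and `RamIn` applies.  `LevelAtC51`: if `v ∤ 𝔫` there is `x ∈ 𝔫` which is a unit at `v` (and
at every `w` over `v`); it lies in the closure of the level, so the exponent is `0`.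
-/

set_option autoImplicit false
set_option linter.unusedSectionVars false

open AutomorphicForm IsDedekindDomain NumberField

noncomputable section

namespace Fermat.Agent.LT.T7.H165

open Fermat.Agent.LT.H556 Fermat.Agent.LT.H556.A0 Fermat.Agent.LT.T7
open Fermat.Agent.LT.T7.H305 Fermat.Agent.LT.T7.H893

section OneField

variable {F : Type} [Field F] [NumberField F]

/-- An integer outside `v` has valuation one in the completion. -/
theorem val_eq_one_of_not_mem165 (v : HeightOneSpectrum (𝓞 F)) (x : 𝓞 F)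
    (hx : x ∉ v.asIdeal) :
    Valued.v (algebraMap F (v.adicCompletion F) (algebraMap (𝓞 F) F x)) = 1 := by
  have h3 : Valued.v (algebraMap F (v.adicCompletion F) (algebraMap (𝓞 F) F x))
      = v.valuation F (algebraMap (𝓞 F) F x) :=
    v.valuedAdicCompletion_eq_valuation' _
  rw [h3, HeightOneSpectrum.valuation_of_algebraMap]
  apply le_antisymm (v.intValuation_le_one x)
  by_contra hlt
  exact hx ((v.intValuation_lt_one_iff_mem x).1 (not_le.1 hlt))

/-- If `v ∤ 𝔫` there is an element of `𝔫` outside `v`. -/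
theorem exists_mem_not_mem165 (𝔫 : Ideal (𝓞 F)) (v : HeightOneSpectrum (𝓞 F))
    (h : ¬ v.asIdeal ∣ 𝔫) : ∃ x : 𝓞 F, x ∈ 𝔫 ∧ x ∉ v.asIdeal := by
  by_contra hcon
  push Not at hcon
  exact h (Ideal.dvd_iff_le.2 fun x hx => hcon x hx)

/-- The exponent of a level at a place which does not divide it is `0`, given a unit of the
level. -/
theorem level_zero165 (𝔫 : Ideal (𝓞 F)) (m : HeightOneSpectrum (𝓞 F) → ℕ)
    (hm : IsLevelOf893 𝔫 m) (v : HeightOneSpectrum (𝓞 F)) (x : 𝓞 F) (hx : x ∈ 𝔫)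
    (hxv : x ∉ v.asIdeal) : m v = 0 := by
  have h1 : algebraMap F (v.adicCompletion F) (algebraMap (𝓞 F) F x) ∈ idealClosure 𝔫 v :=
    subset_closure ⟨x, hx, rfl⟩
  have h2 := (hm v _).1 h1
  rw [val_eq_one_of_not_mem165 v x hxv, ← WithZero.exp_zero, WithZero.exp_le_exp] at h2
  omega

end OneField

section TwoFields

variable (K K' : Type) [Field K] [NumberField K] [Field K'] [NumberField K'] [Algebra K K']

/-- **LEAF P.1 = UNRAM**, VERBATIM. -/
theorem unramC165 : P51.UnramC51 K K' := by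
  intro B 𝔫 T₀ hram hS' hT₀ v hv w hvw
  refine hram v w hvw ?_
  intro hw
  apply hv
  rw [hT₀]
  have h1 : upI (K' := K') 𝔫 ≤ w.asIdeal := Ideal.dvd_iff_le.1 ((hS' w).1 hw)
  refine Ideal.dvd_iff_le.2 fun x hx => ?_
  have h2 : algebraMap (𝓞 K) (𝓞 K') x ∈ w.asIdeal := h1 (Ideal.mem_map_of_mem _ hx)
  exact (hvw x (algebraMap (𝓞 K) (𝓞 K') x) rfl).2 h2

/-- **LEAF P.2 = LEVEL-AT**, VERBATIM. -/
theorem levelAtC165 : P51.LevelAtC51 K K' := by
  intro 𝔫 T₀ n m hT₀ hm hn
  refine ⟨fun v hv => ?_, fun v w hv hvw => ?_⟩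
  · obtain ⟨x, hx, hxv⟩ := exists_mem_not_mem165 𝔫 v (fun h => hv ((hT₀ v).2 h))
    exact level_zero165 𝔫 m hm v x hx hxv
  · obtain ⟨x, hx, hxv⟩ := exists_mem_not_mem165 𝔫 v (fun h => hv ((hT₀ v).2 h))
    refine level_zero165 (upI (K' := K') 𝔫) n hn w (algebraMap (𝓞 K) (𝓞 K') x)
      (Ideal.mem_map_of_mem _ hx) ?_
    intro h
    exact hxv ((hvw x (algebraMap (𝓞 K) (𝓞 K') x) rfl).2 h)

end TwoFields

end Fermat.Agent.LT.T7.H165

end
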